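import Fermat.Agent.LT.T7.H305.MatchSpec
import Fermat.Agent.LT.A2.H743.BaseChange

/-!
# Row LT, tower T7, leaf T7.L2.1.C2.4 `H305.IotaC305` (base change of adeles): THE CUT
# (helper943, SPARE sub-architect for the XL row 2363 of helper185; OFF-MAIN)

Definitions, frozen Props, PROVED tops.  No hole, no opaque constant, nothing assumed.
ADDITIVE: `T7/H305/MatchSpec.lean` (helper305, sha256 541c6ac7) and `A2/H743/BaseChange.lean`
(helper743, closed asset of tower A2) are imported as they are.

    iotaC_of943 : IotaFinC943 K K' → IotaInfC943 K K' → IotaNormC943 K K' → IotaFixedC943 K K'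
        → IotaOntoC943 K K' → IotaEmbC943 K K' → H305.SigmaLocC305 K' → H305.IotaC305 K K'
    iotaOnto_of943 : DescFinC943 K K' → DescInfC943 K K' → GlueC943 K K' → IotaOntoC943 K K'

THE MAP IS FIXED: `iota943 K K' = A2.H743.bcAdele743 K K'` (helper743): product of the completion
maps `K_v → K'_w` (`finLoc743`, `infLoc743`), already PROVED there: ring homomorphism,
`continuous_bcAdele743`, `bcAdele_algebraMap743` (the field `rat`), the components
`bcAdele_fst743`, `bcAdele_snd743`, and `valued_finLoc743 : v(i x) = v(x) ^ e(w | v)`.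

## The leaves (all TRUE statements; every one is stated for THE map `iota943`)

| leaf | Prop | size | content |
|---|---|---|---|
| I.1 | `IotaFinC943`   | S-M | field `fin`: transport of `finLoc743` along `finUnder743 w = v` |
| I.2 | `IotaInfC943`   | M   | field `inf`: `extensionEmbedding w' ∘ completionMap` is `extensionEmbedding v` or its conjugate |
| I.3 | `IotaNormC943`  | L   | field `norm`: `‖ι x‖ = ‖x‖ ^ ℓ` (`∑ e f = ℓ`; `ℓ` complex places over a complex place) |
| I.4 | `IotaFixedC943` | M-L | field `fixed`, from `SigmaLocC305` (density of `K` in `K_v`; `K` totally complex) |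
| I.5a | `DescFinC943`  | L   | local descent at a finite place `v`: a `σ_𝔸`-fixed adele is, at the places over `v`, the image of an element of `K_v` |
| I.5b | `DescInfC943`  | M   | the same at an infinite place |
| I.5c | `GlueC943`     | M   | the local solutions glue to an adele (integrality from the valuation relation) |
| I.6 | `IotaEmbC943`   | L   | `ι` is a topological embedding (any extension of number fields) |

Proof sketches are in the docstrings.  `closed` is PROVED here from I.4, I.5, I.6: the range of
`ι` is the equaliser of `σ_𝔸` and the identity, closed in the Hausdorff space `𝔸_{K'}`.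
-/

set_option autoImplicit false

open AutomorphicForm IsDedekindDomain NumberField MeasureTheory
open scoped ComplexConjugate

noncomputable section

namespace Fermat.Agent.LT.T7.H943

open Fermat.Agent.LT.H556 Fermat.Agent.LT.H556.A0 Fermat.Agent.LT.T7 Fermat.Agent.LT.T7.H305

variable (K K' : Type) [Field K] [NumberField K] [Field K'] [NumberField K'] [Algebra K K']

/-- **THE BASE CHANGE OF ADELES** `ι : 𝔸_K → 𝔸_{K'}` (the map of helper743). -/
def iota943 : Adl K →+* Adl K' := Fermat.Agent.LT.A2.H743.bcAdele743 K K'

theorem iota943_def : iota943 K K' = Fermat.Agent.LT.A2.H743.bcAdele743 K K' := rfl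

theorem continuous_iota943 : Continuous (iota943 K K') :=
  Fermat.Agent.LT.A2.H743.continuous_bcAdele743 K K'

theorem iota943_algebraMap (x : K) :
    iota943 K K' (algebraMap K (Adl K) x) = algebraMap K' (Adl K') (algebraMap K K' x) :=
  Fermat.Agent.LT.A2.H743.bcAdele_algebraMap743 K K' x

/-! ## The leaves -/

/-- **LEAF I.1 = IOTA-FIN (the field `fin`).**
Proof.  `PlaceOver K K' v w` gives `finUnder743 K K' w = v` (`HeightOneSpectrum.ext`:
`x ∈ w.asIdeal.under (𝓞 K) ↔ algebraMap x ∈ w.asIdeal`); `subst`; `e = ramIdx743 K K' w`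
(`ramIdx_ne_zero743`), `i = finLoc743 K K' w` (`finLoc_coe743`, `valued_finLoc743`), and
`T5.finHom w (ι x) = (ι x).2 w = finLoc743 w (x.2 (finUnder743 w))` is `bcAdele_snd743`. -/
def IotaFinC943 : Prop :=
  ∀ (v : HeightOneSpectrum (𝓞 K)) (w : HeightOneSpectrum (𝓞 K')), PlaceOver K K' v w →
    ∃ (e : ℕ) (i : v.adicCompletion K →+* w.adicCompletion K'), 0 < e ∧
      (∀ x : K, i (algebraMap K (v.adicCompletion K) x)
        = algebraMap K' (w.adicCompletion K') (algebraMap K K' x)) ∧
      (∀ x : v.adicCompletion K, Valued.v (i x) = Valued.v x ^ e) ∧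
      ∀ x : Adl K, T5.finHom w (iota943 K K' x) = i (T5.finHom v x)

/-- **LEAF I.2 = IOTA-INF (the field `inf`).**
Proof.  `T5.infHom w' (ι x) = extensionEmbedding w' (completionMap (x.1 v))`,
`v = w'.comap (algebraMap K K')` (`bcAdele_fst743`, `infLoc743 = LiesOver.completionMap`).  The
two maps `extensionEmbedding w' ∘ completionMap` and `extensionEmbedding v` (resp. its
conjugate) are continuous ring homomorphisms `K_v → ℂ`; on the dense subfield `K` the first is
`w'.embedding ∘ algebraMap K K'`, which is `v.embedding` or its conjugate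
(`InfinitePlace.comap`, `mk_embedding`, `mk_eq_iff`); Mathlib:
`NumberField.InfinitePlace.LiesOver` (`Completion/InfinitePlace.lean`, section `LiesOver`). -/
def IotaInfC943 : Prop :=
  ∀ w' : InfinitePlace K',
    (∀ x : Adl K, T5.infHom w' (iota943 K K' x)
        = T5.infHom (w'.comap (algebraMap K K')) x) ∨
      ∀ x : Adl K, T5.infHom w' (iota943 K K' x)
        = conj (T5.infHom (w'.comap (algebraMap K K')) x)

/-- **LEAF I.3 = IOTA-NORM (the field `norm`).**  `‖ι x‖_{K'} = ‖x‖_K ^ ℓ` on the ideles.
Proof.  Infinite part: `K` totally complex, so every place of `K'` is complex (`mult = 2`), the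
completion maps are isometries, and every place `v` of `K` has exactly `ℓ = [K' : K]` places
over it (Mathlib `InfinitePlace` ramification: `card_stabilizer` / `isUnramified`, or
`Module.finrank` of the embeddings extending a given one).  Finite part:
`‖i x‖_w = ‖x‖_v ^ (e_w f_w)` (`valued_finLoc743` for `e_w`, `N w = (N v) ^ f_w`, the norm of
`K_v` is `(N v) ^ (- ord)`) and `∑_{w ∣ v} e_w f_w = ℓ` (`Ideal.sum_ramification_inertia`);
`∏ᶠ_w = ∏ᶠ_v ∏_{w ∣ v}` (finite fibres `finite_fiber_finUnder743`, finite support: `x` is an
idele). -/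
def IotaNormC943 : Prop :=
  ∀ ℓ : ℕ, IsCycExt K K' ℓ → TotCplx K →
    ∀ x : (Adl K)ˣ, T5.adNorm (iota943 K K' (x : Adl K)) = T5.adNorm (x : Adl K) ^ ℓ

/-- **LEAF I.4 = IOTA-FIXED (the field `fixed`).**
Proof.  Components (an adele is determined by `T5.finHom w`, `T5.infHom w'`: the extension
embeddings are injective).  Finite `w'`: `w = σ⁻¹ w'` (`T5.PlaceRel D.s w w'`), `SigmaLocC305`
gives `s_w`; `w`, `w'` lie over the same `v` (`σ` fixes `K`: `IsCompData.base`,
`IsCyclicOfDegree.fixed`); `s_w ∘ i_{v,w}` and `i_{v,w'}` are continuous (valuation relations)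
and agree on the dense subfield `K`.  Infinite `w'`: both sides are `x_v` or `conj x_v` in the
coordinates of `T5.infHom` (`SigmaLocC305`, I.2), they agree on `K`, and `conj ∘ φ ≠ φ` for the
embedding `φ` of a complex place (`K` totally complex). -/
def IotaFixedC943 : Prop :=
  SigmaLocC305 K' → ∀ D : CompData K K', IsCompData D → IsCycExt K K' D.l → TotCplx K →
    ∀ x : Adl K, D.s.σA (iota943 K K' x) = iota943 K K' x

/-- **NODE I.5 = IOTA-ONTO (the field `onto`)**; cut into I.5a, I.5b, I.5c (`iotaOnto_of943`). -/
def IotaOntoC943 : Prop :=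
  SigmaLocC305 K' → ∀ D : CompData K K', IsCompData D → IsCycExt K K' D.l → TotCplx K →
    ∀ y : Adl K', D.s.σA y = y → ∃ x : Adl K, iota943 K K' x = y

/-- **LEAF I.5a = DESC-FIN (local descent at a finite place).**  For a `σ_𝔸`-fixed adele `y` and
a finite place `v` of `K` there is an adele `a` of `K` with `(ι a)_w = y_w` at ALL places `w`
over `v` (only the component of `a` at `v` matters).
Proof (no local Galois theory).  `R_v = ∏_{w ∣ v} K'_w` (finite product), a finite
dimensional normed space over `K_v` through `(i_{v,w})_w`.  (1) `K'` is dense in `R_v` (weak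
approximation at the places over `v`: CRT in the Dedekind domain `𝓞 K'`; asset
`LT/CFT/H861/Approx.lean`).  (2) The `K_v`-span `M` of the image of `K'` has dimension `≤ ℓ`
(spanned by the images of a `K`-basis of `K'`), so it is closed
(`Submodule.closed_of_finiteDimensional`); with (1), `M = R_v`.  (3) So
`(y_w)_w = ∑_j i(c_j) θ_j`, `c_j ∈ K_v`, `θ_j` a `K`-basis of `K'`.  The maps
`T_m : R_v → R_v`, `(T_m z)_{σ^m w} = s^m_w (z_w)` (`SigmaLocC305`, iterated) are `K_v`-linear and
`σ^m` on `K'`; `y` is fixed, so `ℓ y = ∑_m T_m y = ∑_j i(c_j) Tr_{K'/K}(θ_j)`, and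
`(y_w)_w = i(ℓ⁻¹ ∑_j c_j Tr(θ_j))`.  Take `a` with this component at `v`
(e.g. `a = ` the adele supported at `v`). -/
def DescFinC943 : Prop :=
  SigmaLocC305 K' → ∀ D : CompData K K', IsCompData D → IsCycExt K K' D.l → TotCplx K →
    ∀ y : Adl K', D.s.σA y = y → ∀ v : HeightOneSpectrum (𝓞 K),
      ∃ a : Adl K, ∀ w : HeightOneSpectrum (𝓞 K'), PlaceOver K K' v w →
        T5.finHom w (iota943 K K' a) = T5.finHom w y

/-- **LEAF I.5b = DESC-INF (local descent at an infinite place).**  The same at an infinite place
`v` of `K` (complex): `R_v = ∏_{w' ∣ v} ℂ`, the same argument (or directly: the `ℓ` places over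
`v` are permuted transitively by `σ`, `SigmaLocC305` moves the components by the identity or the
conjugation, and the composite around the orbit is the identity on the dense subfield `K`). -/
def DescInfC943 : Prop :=
  SigmaLocC305 K' → ∀ D : CompData K K', IsCompData D → IsCycExt K K' D.l → TotCplx K →
    ∀ y : Adl K', D.s.σA y = y → ∀ v : InfinitePlace K,
      ∃ a : Adl K, ∀ w' : InfinitePlace K', w'.comap (algebraMap K K') = v →
        T5.infHom w' (iota943 K K' a) = T5.infHom w' y

/-- **LEAF I.5c = GLUE.**  If `y ∈ 𝔸_{K'}` is locally in the image of `ι` at every place of `K`,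
it is in the image of `ι`.  No hypothesis on the extension.
Proof.  Choose `a_v` for every `v`; `x_v := (a_v)_v`.  For almost all `w` the component `y_w` is
integral; the set of `v` under the other `w` is finite; for the remaining `v` pick `w ∣ v`
(`Ideal.exists_ideal_over_prime_of_isIntegral` / `primesOver` non-empty): `i(x_v) = y_w` is
integral, so `x_v` is integral (`valued_finLoc743`, `ramIdx_ne_zero743`).  So `x = (x_v)_v` is an
adele (`RestrictedProduct.mk`), and `ι x = y` component by component (`bcAdele_fst743`,
`bcAdele_snd743`; an adele is determined by its components). -/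
def GlueC943 : Prop :=
  ∀ y : Adl K',
    (∀ v : HeightOneSpectrum (𝓞 K), ∃ a : Adl K, ∀ w : HeightOneSpectrum (𝓞 K'),
      PlaceOver K K' v w → T5.finHom w (iota943 K K' a) = T5.finHom w y) →
    (∀ v : InfinitePlace K, ∃ a : Adl K, ∀ w' : InfinitePlace K',
      w'.comap (algebraMap K K') = v → T5.infHom w' (iota943 K K' a) = T5.infHom w' y) →
    ∃ x : Adl K, iota943 K K' x = y

/-- **LEAF I.6 = IOTA-EMB.**  `ι` is a topological embedding (true for every extension of number
fields).
Proof.  Injective: the components are field homomorphisms and every place of `K` has a place of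
`K'` over it.  Inducing: choose a place `w(v)` over every `v`; the composite of `ι` with the
projection to the places `w(v)` is the restricted product of the maps `i_{v,w(v)}`, which are
homeomorphisms onto their images with `i⁻¹(𝒪_w) = 𝒪_v` (`valued_finLoc743`); a neighbourhood
basis of `0` in `𝔸_K` is `∏_{v ∈ S} {|x_v| ≤ ε_v} × ∏_{v ∉ S} 𝒪_v`
(`RestrictedProduct.nhds_zero_eq_map_structureMap`), the preimage of the corresponding
neighbourhood of `0` in `𝔸_{K'}` with `|y_{w(v)}| ≤ ε_v ^ e`; infinite part: product of
isometries along a surjection of finite index sets. -/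
def IotaEmbC943 : Prop := Topology.IsEmbedding (iota943 K K')

/-! ## The tops (PROVED) -/

variable {K K'}

/-- **The node `IotaOntoC943` from its three leaves.** -/
theorem iotaOnto_of943 (hfin : DescFinC943 K K') (hinf : DescInfC943 K K')
    (hglue : GlueC943 K K') : IotaOntoC943 K K' :=
  fun hs D hD hcyc hcplx y hy =>
    hglue y (fun v => hfin hs D hD hcyc hcplx y hy v) (fun v => hinf hs D hD hcyc hcplx y hy v)

/-- The range of `ι` is closed: it is the set of the fixed points of `σ_𝔸`. -/
theorem isClosed_range_iota943 (hfix : IotaFixedC943 K K') (honto : IotaOntoC943 K K')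
    (hs : SigmaLocC305 K') (D : CompData K K') (hD : IsCompData D) (hcyc : IsCycExt K K' D.l)
    (hcplx : TotCplx K) : IsClosed (Set.range (iota943 K K')) := by
  have hrange : Set.range (iota943 K K') = {y : Adl K' | D.s.σA y = y} := by
    ext y
    constructor
    · rintro ⟨x, rfl⟩
      exact hfix hs D hD hcyc hcplx x
    · intro hy
      exact honto hs D hD hcyc hcplx y hy
  rw [hrange]
  have h1 : T2Space (FiniteAdeleRing (𝓞 K') K') := by
    refine T2Space.of_injective_continuous
      (f := fun (x : FiniteAdeleRing (𝓞 K') K') (v : HeightOneSpectrum (𝓞 K')) => x v) ?_ ?_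
    · intro x y h
      exact RestrictedProduct.ext _ _ fun v => congrFun h v
    · exact RestrictedProduct.continuous_coe
  have h2 : T2Space (InfiniteAdeleRing K') :=
    inferInstanceAs (T2Space ((v : InfinitePlace K') → v.Completion))
  have h3 : T2Space (Adl K') :=
    inferInstanceAs (T2Space (InfiniteAdeleRing K' × FiniteAdeleRing (𝓞 K') K'))
  exact isClosed_eq D.s.continuous_σA continuous_id

/-- **THE TOP: `H305.IotaC305` from the leaves of the cut and the asset `SigmaLocC305`.** -/
theorem iotaC_of943 (hfin : IotaFinC943 K K') (hinf : IotaInfC943 K K')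
    (hnorm : IotaNormC943 K K') (hfix : IotaFixedC943 K K') (honto : IotaOntoC943 K K')
    (hemb : IotaEmbC943 K K') (hs : SigmaLocC305 K') : IotaC305 K K' := by
  intro D hD hcyc hcplx
  refine ⟨iota943 K K', ?_⟩
  exact
    { cont := continuous_iota943 K K'
      closed := ⟨hemb, isClosed_range_iota943 hfix honto hs D hD hcyc hcplx⟩
      rat := iota943_algebraMap K K'
      fixed := hfix hs D hD hcyc hcplx
      onto := honto hs D hD hcyc hcplx
      norm := hnorm D.l hcyc hcplx
      fin := hfin
      inf := hinf }

/-- The top with the node `IotaOntoC943` cut. -/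
theorem iotaC_of_leaves943 (hfin : IotaFinC943 K K') (hinf : IotaInfC943 K K')
    (hnorm : IotaNormC943 K K') (hfix : IotaFixedC943 K K') (hdf : DescFinC943 K K')
    (hdi : DescInfC943 K K') (hglue : GlueC943 K K') (hemb : IotaEmbC943 K K')
    (hs : SigmaLocC305 K') : IotaC305 K K' :=
  iotaC_of943 hfin hinf hnorm hfix (iotaOnto_of943 hdf hdi hglue) hemb hs

end Fermat.Agent.LT.T7.H943

end
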