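import Fermat.Agent.LT.T7.H943.IotaSpec

/-!
# Row LT, tower T7, leaf T7.L2.1.C2.4.1 `IotaFinC943` (helper943), OFF-MAIN

`iotaFinC943 : IotaFinC943 K K'` VERBATIM, unconditional: the field `fin` of
`H305.IsAdeleBase305` for the base change `iota943 = A2.H743.bcAdele743`.
-/

set_option autoImplicit false
set_option linter.unusedSectionVars false

open AutomorphicForm IsDedekindDomain NumberField

noncomputable section

namespace Fermat.Agent.LT.T7.H943

open Fermat.Agent.LT.H556 Fermat.Agent.LT.H556.A0 Fermat.Agent.LT.T7 Fermat.Agent.LT.T7.H305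
open Fermat.Agent.LT.A2

variable (K K' : Type) [Field K] [NumberField K] [Field K'] [NumberField K'] [Algebra K K']

/-- `PlaceOver K K' v w` says that `v` is the place under `w`. -/
theorem finUnder_eq_of_placeOver943 {v : HeightOneSpectrum (𝓞 K)}
    {w : HeightOneSpectrum (𝓞 K')} (h : PlaceOver K K' v w) : H743.finUnder743 K K' w = v := by
  apply HeightOneSpectrum.ext
  ext x
  show x ∈ w.asIdeal.under (𝓞 K) ↔ x ∈ v.asIdeal
  rw [Ideal.under_def, Ideal.mem_comap]
  exact (h x (algebraMap (𝓞 K) (𝓞 K') x) rfl).symm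

/-- The converse. -/
theorem placeOver_finUnder943 (w : HeightOneSpectrum (𝓞 K')) :
    PlaceOver K K' (H743.finUnder743 K K' w) w := by
  intro x y hxy
  show x ∈ w.asIdeal.under (𝓞 K) ↔ y ∈ w.asIdeal
  rw [Ideal.under_def, Ideal.mem_comap]
  have : algebraMap (𝓞 K) (𝓞 K') x = y := by
    apply Subtype.ext
    exact hxy.symm
  rw [this]

theorem finHom_iota943 (w : HeightOneSpectrum (𝓞 K')) (x : Adl K) :
    T5.finHom w (iota943 K K' x)
      = H743.finLoc743 K K' w (T5.finHom (H743.finUnder743 K K' w) x) := rfl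

/-- **LEAF I.1 = IOTA-FIN**, VERBATIM. -/
theorem iotaFinC943 : IotaFinC943 K K' := by
  intro v w hvw
  have h := finUnder_eq_of_placeOver943 K K' hvw
  subst h
  refine ⟨H743.ramIdx743 K K' w, H743.finLoc743 K K' w,
    Nat.pos_of_ne_zero (H743.ramIdx_ne_zero743 K K' w), ?_, ?_, ?_⟩
  · intro x
    exact H743.finLoc_coe743 K K' w x
  · intro x
    exact H743.valued_finLoc743 K K' w x
  · intro x
    rfl

end Fermat.Agent.LT.T7.H943

end
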