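import Fermat.Agent.LT.T7.H943.IotaFin

/-!
# Row LT, tower T7, leaf T7.L2.1.C2.4.5c `GlueC943` (helper943), OFF-MAIN

`glueC943 : GlueC943 K K'` VERBATIM, unconditional: an adele of `K'` which is locally in the
image of the base change `iota943` at every place of `K` is in the image of `iota943`.
-/

set_option autoImplicit false
set_option linter.unusedSectionVars false

open AutomorphicForm IsDedekindDomain NumberField

noncomputable section

namespace Fermat.Agent.LT.T7.H943

open Fermat.Agent.LT.H556 Fermat.Agent.LT.H556.A0 Fermat.Agent.LT.T7 Fermat.Agent.LT.T7.H305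
open Fermat.Agent.LT.A2

variable (K K' : Type) [Field K] [NumberField K] [Field K'] [NumberField K'] [Algebra K K']

/-- Every finite place of `K` has a finite place of `K'` over it. -/
theorem exists_finUnder_eq943 (v : HeightOneSpectrum (𝓞 K)) :
    ∃ w : HeightOneSpectrum (𝓞 K'), H743.finUnder743 K K' w = v := by
  have := v.isPrime
  obtain ⟨Q, -, hQ, hQv⟩ := Ideal.exists_ideal_over_prime_of_isIntegral v.asIdeal
    (⊥ : Ideal (𝓞 K')) (by simp [← RingHom.ker_eq_comap_bot])
  have hne : Q ≠ ⊥ := by
    intro h
    apply v.ne_bot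
    rw [← hQv, h]
    simp [← RingHom.ker_eq_comap_bot]
  refine ⟨⟨Q, hQ, hne⟩, ?_⟩
  apply HeightOneSpectrum.ext
  show Q.under (𝓞 K) = v.asIdeal
  rw [Ideal.under_def]
  exact hQv

theorem infHom_iota943 (w' : InfinitePlace K') (x : Adl K) :
    T5.infHom w' (iota943 K K' x)
      = InfinitePlace.Completion.extensionEmbedding w'
          (H743.infLoc743 K K' w' (x.1 (H743.infUnder743 K K' w'))) := rfl

/-- **LEAF I.5c = GLUE**, VERBATIM. -/
theorem glueC943 : GlueC943 K K' := by
  intro y hfin hinf
  choose af haf using hfin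
  choose ai hai using hinf
  -- integrality almost everywhere
  have hy : ∀ᶠ w in Filter.cofinite, y.2 w ∈ w.adicCompletionIntegers K' := y.2.2
  have hB' : {w : HeightOneSpectrum (𝓞 K') | ¬ y.2 w ∈ w.adicCompletionIntegers K'}.Finite :=
    Filter.eventually_cofinite.mp hy
  have hB : (H743.finUnder743 K K' ''
      {w : HeightOneSpectrum (𝓞 K') | ¬ y.2 w ∈ w.adicCompletionIntegers K'}).Finite :=
    hB'.image _
  have hint : ∀ᶠ v in Filter.cofinite,
      (af v).2 v ∈ (v.adicCompletionIntegers K : Set (v.adicCompletion K)) := by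
    rw [Filter.eventually_cofinite]
    refine hB.subset ?_
    intro v hv
    obtain ⟨w, hw⟩ := exists_finUnder_eq943 K K' v
    refine ⟨w, ?_, hw⟩
    intro hyw
    apply hv
    subst hw
    have h1 := haf (H743.finUnder743 K K' w) w (placeOver_finUnder943 K K' w)
    rw [finHom_iota943] at h1
    have h2 : Valued.v (H743.finLoc743 K K' w
        (T5.finHom (H743.finUnder743 K K' w) (af (H743.finUnder743 K K' w)))) ≤ 1 := by
      rw [h1]
      exact (HeightOneSpectrum.mem_adicCompletionIntegers _ _ _).mp hyw
    rw [H743.valued_finLoc743] at h2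
    rw [SetLike.mem_coe, HeightOneSpectrum.mem_adicCompletionIntegers]
    exact (pow_le_one_iff (H743.ramIdx_ne_zero743 K K' w)).mp h2
  -- the adele
  let xfin : FiniteAdeleRing (𝓞 K) K := ⟨fun v => (af v).2 v, hint⟩
  let xinf : InfiniteAdeleRing K := fun v => (ai v).1 v
  let x : Adl K := (xinf, xfin)
  refine ⟨x, ?_⟩
  refine Prod.ext ?_ ?_
  · funext w'
    have h1 := hai (H743.infUnder743 K K' w') w' rfl
    rw [infHom_iota943] at h1
    have h2 := (InfinitePlace.Completion.extensionEmbedding w').injective h1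
    show H743.infLoc743 K K' w' (x.1 (H743.infUnder743 K K' w')) = y.1 w'
    exact h2
  · refine FiniteAdeleRing.ext (R := 𝓞 K') (K := K') fun w => ?_
    have h1 := haf (H743.finUnder743 K K' w) w (placeOver_finUnder943 K K' w)
    rw [finHom_iota943] at h1
    show H743.finLoc743 K K' w (x.2 (H743.finUnder743 K K' w)) = y.2 w
    exact h1

end Fermat.Agent.LT.T7.H943

end
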